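import Fermat.Agent.S48.TNV.Kb.Charts
import Fermat.Agent.S48.TNV.Kb.Basic
import Fermat.Agent.S48.TNV.Kb.SmallE
import Fermat.Agent.S48.TNV.RootPer
import Fermat.Agent.S48.TNV.Level
import Fermat.Agent.S48.T24.Cards

set_option autoImplicit false

/-!
# NV task T6b-SmallP (TWIN FILE: read the header of `NV/Kb/Defs.lean`)

If `m ∣ div f`, the character of `f` is trivial on the parabolic elements `g⁻¹ T^j g ∈ Γ₀(N)`.

SKETCH.  Data `(a, w, h)`; `DivBy N m (thetaIncl a)`.  `exists_place_T N g` gives `v, k, μ` with `γ₀ = g⁻¹ T^k g ∈ Γ₀(N)`, `k ∣ j`, `μ k = N`,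
`(theta N (cuspChart N) g f).order = μ * v.ord f`.  Since `g⁻¹ T^j g = γ₀ ^ (j / k)` it suffices to show `χ γ₀ = 1`.
`H = act g h`; `act (T^k) H = act g (act γ₀ h) = c • H`, `c = (χ γ₀)⁻¹`, `c ^ m = 1` (`HasChar.pow_eq_one`).  So `act (T ^ (N m)) H = H` and
`H ^ m = act g (PhiB a) ∈ perSub N ≤ perSub (N m)`; `mem_perSub_of_pow` : `H ∈ perSub (N m)`.  Let `o = (TInf (N m) H).order`.
* `TInf_act_T (N m)` iterated `k` times + `leadingCoeff_twist`: `c * lc = ζ ^ (k o) * lc` with `ζ = rootU (N m) (-1)` a primitive `N m`-th root of `1`.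
* `m * o = order (TInf (N m) (H ^ m)) = order (qExpand m (TInf N (act g (PhiB a)))) = m * order (TInf N ..) = m * μ * v.ord (thetaIncl a) = m * μ * m * r`
  (`TInf_level`, `order_qExpand`, `theta_incl`, `Cards.cuspChart_onB`).  So `k o = k μ m r = N m r` and `ζ ^ (k o) = 1`, `c = 1`.
-/

open UpperHalfPlane ModularForm CongruenceSubgroup AlgebraicCurve IntermediateField
open scoped MatrixGroups Manifold

namespace Fermat.Agent.T24

open Fermat.Agent.S24

open Fermat.Agent.T24.NV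

namespace Ch

namespace SmallP

/-- iterating `TInf_act_T`. -/
theorem TInf_act_T_pow (M : ℕ) [NeZero M] (f : perSub M) (n : ℕ) :
    ∃ hmem : act (ModularGroup.T ^ n) f.1 ∈ perSub M,
      (TInf M ⟨_, hmem⟩).order = (TInf M f).order ∧
      (TInf M ⟨_, hmem⟩).leadingCoeff =
        (((rootU M (-1) : ℂˣ) : ℂ) ^ (TInf M f).order) ^ n * (TInf M f).leadingCoeff := by
  induction n with
  | zero =>
    have e : act (ModularGroup.T ^ 0) f.1 = f.1 := by rw [pow_zero, act_one]
    have hmem : act (ModularGroup.T ^ 0) f.1 ∈ perSub M := by rw [e]; exact f.2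
    have e' : (⟨_, hmem⟩ : perSub M) = f := Subtype.ext e
    refine ⟨hmem, ?_, ?_⟩
    · rw [e']
    · rw [e']
      simp
  | succ n ih =>
    obtain ⟨hmem, h1, h2⟩ := ih
    have e : act (ModularGroup.T ^ (n + 1)) f.1 = act ModularGroup.T (act (ModularGroup.T ^ n) f.1) := by
      rw [pow_succ', act_mul]
    have hmem' : act (ModularGroup.T ^ (n + 1)) f.1 ∈ perSub M := by
      rw [e]; exact act_T_mem_perSub hmem
    have e2 : TInf M ⟨_, hmem'⟩ = twist (rootU M (-1)) (TInf M ⟨_, hmem⟩) := by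
      rw [← TInf_act_T]
      congr 1
      exact Subtype.ext e
    refine ⟨hmem', ?_, ?_⟩
    · rw [e2, order_twist, h1]
    · rw [e2, leadingCoeff_twist, h1, h2, pow_succ]
      ring

theorem act_smul_pow (ε : SL(2, ℤ)) (H : ℍ → ℂ) (c : ℂ) (h : act ε H = fun z => c * H z) (n : ℕ) :
    act (ε ^ n) H = fun z => c ^ n * H z := by
  induction n with
  | zero => rw [pow_zero, act_one]; funext z; simp
  | succ n ih =>
    rw [pow_succ, act_mul, h]
    funext z
    have := congrFun ih z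
    simp only [act_apply] at this ⊢
    rw [this]
    ring

end SmallP

open SmallP SmallE in
theorem HasChar.eq_one_of_parabolic {N : ℕ} [NeZero N] [Cond N] {m : ℕ} (hm : 0 < m) {f : FN N}
    {χ : Chr N} (h : HasChar N m f χ) (hd : DivBy N m f) (γ : Gam N) (g : SL(2, ℤ)) (j : ℕ)
    (hγ : (γ : SL(2, ℤ)) = g⁻¹ * ModularGroup.T ^ j * g) : χ γ = 1 := by
  have hχm := h.pow_eq_one hm
  obtain ⟨a, w, hh, ha, hw, e, ⟨hmd, hroot⟩, heqv⟩ := h
  have hda := divBy_incl ha hw e hd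
  obtain ⟨v, k, μ, hk, hkΓ, hmin, hμk, hord⟩ := exists_place_T N g
  set γ₀ : Gam N := ⟨g⁻¹ * ModularGroup.T ^ k * g, hkΓ⟩ with hγ₀
  -- reduction to `γ₀`
  obtain ⟨i, rfl⟩ := hmin j (hγ ▸ γ.2)
  have hγpow : γ = γ₀ ^ i := by
    apply Subtype.ext
    rw [hγ, Subgroup.coe_pow, hγ₀]
    show _ = (g⁻¹ * ModularGroup.T ^ k * g) ^ i
    have := conj_pow (a := g⁻¹) (b := ModularGroup.T ^ k) (i := i)
    rw [inv_inv] at this
    rw [this, pow_mul]
  suffices hs : χ γ₀ = 1 by rw [hγpow, map_pow, hs, one_pow]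
  have hN : 0 < N := Nat.pos_of_ne_zero (NeZero.ne N)
  set M : ℕ := N * m with hM
  have : NeZero M := ⟨(Nat.mul_pos hN hm).ne'⟩
  have hMN : M / N = m := Nat.mul_div_cancel_left m hN
  have : NeZero (M / N) := ⟨by rw [hMN]; exact hm.ne'⟩
  set c : ℂ := (((χ γ₀)⁻¹ : ℂˣ) : ℂ) with hc
  have hcm : c ^ m = 1 := by
    have h1 : (χ γ₀) ^ m = 1 := by
      have := congrArg (fun ψ : Chr N => ψ γ₀) hχm
      simpa using this
    rw [hc, ← Units.val_pow_eq_pow_val, inv_pow, h1, inv_one, Units.val_one]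
  set H : ℍ → ℂ := act g hh with hH
  have hactH : act (ModularGroup.T ^ k) H = fun z => c * H z := by
    have e1 : ModularGroup.T ^ k * g = g * (γ₀ : SL(2, ℤ)) := by
      rw [hγ₀]
      show _ = g * (g⁻¹ * ModularGroup.T ^ k * g)
      group
    rw [hH, ← act_mul, e1, act_mul, heqv.act_eq γ₀]
    rfl
  -- `k ∣ N`
  obtain ⟨μ', hμ'⟩ : k ∣ N := by
    have : (k : ℤ) ∣ (N : ℤ) := ⟨μ, by rw [← hμk]; ring⟩
    exact_mod_cast this
  have hper : act (ModularGroup.T ^ M) H = H := by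
    have : M = k * (μ' * m) := by rw [hM, hμ']; ring
    rw [this, pow_mul, act_smul_pow _ _ _ hactH, mul_comm μ' m, pow_mul, hcm, one_pow]
    funext z
    rw [one_mul]
  have hHmd : MDiff H := act_mem_holSub g (show hh ∈ holSub from hmd)
  have hHpow : H ^ m = ((actB N g (PhiB N a) : Btil N) : ℍ → ℂ) := by
    rw [coe_actB, hH, ← map_pow]
    congr 1
    funext z
    exact hroot z
  have hyN : H ^ m ∈ perSub N := by
    rw [hHpow]; exact Btil_le_perSub N (actB N g (PhiB N a)).2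
  have hNM : N ∣ M := Dvd.intro m rfl
  have hHper : H ∈ perSub M :=
    mem_perSub_of_pow hm hHmd hper (perSub_le_of_dvd hNM hyN)
  set HM : perSub M := ⟨H, hHper⟩ with hHM
  set o : ℤ := (TInf M HM).order with ho
  -- `H ≠ 0`
  have ha0 : thetaIncl N a ≠ 0 := fun h0 => ha (thetaIncl_injective N (by rw [h0, map_zero]))
  have hth : theta N (cuspChart N) g (thetaIncl N a) = TInf N ⟨H ^ m, hyN⟩ := by
    rw [theta_incl, Cards.cuspChart_onB]
    congr 1
    exact Subtype.ext hHpow.symm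
  have hthne : theta N (cuspChart N) g (thetaIncl N a) ≠ 0 := by
    rw [Ne, map_eq_zero]; exact ha0
  have hHM0 : TInf M HM ≠ 0 := by
    intro h0
    have h1 : HM = 0 := TInf_injective M (by rw [h0, map_zero])
    have h2 : H = 0 := congrArg Subtype.val h1
    apply hthne
    rw [hth]
    have : (⟨H ^ m, hyN⟩ : perSub N) = 0 := by
      apply Subtype.ext
      show H ^ m = 0
      rw [h2, zero_pow hm.ne']
    rw [this, map_zero]
  -- the order
  have hm0 : (m : ℤ) ≠ 0 := by exact_mod_cast hm.ne'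
  obtain ⟨r, hr⟩ := hda v
  have ho' : o = μ * m * r := by
    have h1 : (m : ℤ) * o = (TInf M (HM ^ m)).order := by
      rw [map_pow, HahnSeries.order_pow, nsmul_eq_mul]
    have h2 : HM ^ m = ⟨(⟨H ^ m, hyN⟩ : perSub N).1, perSub_le_of_dvd hNM hyN⟩ := rfl
    rw [h2, TInf_level hNM, order_qExpand, hMN, ← hth, hord _ ha0, hr] at h1
    apply mul_left_cancel₀ hm0
    rw [h1]; ring
  -- comparison of leading coefficients
  obtain ⟨hmem, -, hlc⟩ := TInf_act_T_pow M HM k
  have hconst : (fun _ : ℍ => c) ∈ perSub M := (isBd_const M c).isPer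
  have e3 : (⟨act (ModularGroup.T ^ k) HM.1, hmem⟩ : perSub M) = ⟨fun _ => c, hconst⟩ * HM := by
    apply Subtype.ext
    exact hactH
  rw [e3, map_mul, TInf_const, HahnSeries.leadingCoeff_mul] at hlc
  have hlc0 : (TInf M HM).leadingCoeff ≠ 0 := HahnSeries.leadingCoeff_ne_zero.2 hHM0
  have h4 := mul_right_cancel₀ hlc0 hlc
  have h5 : (HahnSeries.C c : LaurentSeries ℂ).leadingCoeff = c := HahnSeries.leadingCoeff_of_single
  rw [h5, ← ho, ← zpow_natCast, ← zpow_mul] at h4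
  have h6 : o * (k : ℤ) = (M : ℤ) * r := by
    rw [ho', hM]
    push_cast
    rw [← hμk]; ring
  rw [h6, zpow_mul, zpow_natCast, rootU_pow M (NeZero.ne M), one_zpow] at h4
  have h7 : (χ γ₀)⁻¹ = 1 := Units.ext h4
  exact inv_eq_one.1 h7

end Ch

end Fermat.Agent.T24
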