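import Fermat.Agent.S48.TNV.Kb.SmallE
import Fermat.Agent.S48.TNV.Kb.SmallP
import Fermat.Agent.S48.TNV.SmallClass
import Fermat.Agent.S48.T24.Cards

set_option autoImplicit false

/-!
# NV task T6c-Small (TWIN FILE: read the header of `NV/Kb/Defs.lean`)

If `m ∣ div f`, the character of `f` is trivial on the elements of small trace.

SKETCH.  `smallTrace_cases`.  Fixed point: `eq_one_of_fixed`.  `γ = ± g⁻¹ T^j g`, `j : ℤ`: `-1 ∈ Γ₀(N)` acts trivially on `ℍ`, so `χ (-1) = 1` (`eq_one_of_fixed` with any `τ`);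
for `j < 0` pass to `γ⁻¹`; then `eq_one_of_parabolic`.
-/

open UpperHalfPlane ModularForm CongruenceSubgroup AlgebraicCurve IntermediateField
open scoped MatrixGroups Manifold

namespace Fermat.Agent.T24

open Fermat.Agent.S24

open Fermat.Agent.T24.NV

namespace Ch

theorem small_neg_one_mem (N : ℕ) [Cond N] : (-1 : SL(2, ℤ)) ∈ Gam N :=
  neg_one_mem_Gam N

theorem HasChar.smallTriv {N : ℕ} [NeZero N] [Cond N] {m : ℕ} (hm : 0 < m) {f : FN N} {χ : Chr N}
    (h : HasChar N m f χ) (hd : DivBy N m f) : SmallTriv N χ := by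
  have hneg : χ ⟨-1, small_neg_one_mem N⟩ = 1 := by
    refine h.eq_one_of_fixed hm hd _ I ?_
    show (-1 : SL(2, ℤ)) • (I : ℍ) = I
    rw [ModularGroup.SL_neg_smul, one_smul]
  -- the parabolic case, with an integer exponent
  have hpar : ∀ (γ : Gam N) (g : SL(2, ℤ)) (j : ℤ),
      (γ : SL(2, ℤ)) = g⁻¹ * ModularGroup.T ^ j * g → χ γ = 1 := by
    intro γ g j hγ
    rcases Int.eq_nat_or_neg j with ⟨n, rfl | rfl⟩
    · exact h.eq_one_of_parabolic hm hd γ g n (by rw [hγ, zpow_natCast])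
    · have h1 : χ γ⁻¹ = 1 := by
        refine h.eq_one_of_parabolic hm hd γ⁻¹ g n ?_
        rw [Subgroup.coe_inv, hγ, zpow_neg, zpow_natCast]
        group
      rwa [map_inv, inv_eq_one] at h1
  intro γ hγ
  rcases smallTrace_cases (γ : SL(2, ℤ)) hγ with ⟨τ, hτ⟩ | ⟨g, j, hj | hj⟩
  · exact h.eq_one_of_fixed hm hd γ τ hτ
  · exact hpar γ g j hj
  · have h1 : χ (⟨-1, small_neg_one_mem N⟩ * γ) = 1 := by
      refine hpar _ g j ?_
      rw [Subgroup.coe_mul, hj]
      simp
    rwa [map_mul, hneg, one_mul] at h1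

end Ch

end Fermat.Agent.T24
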